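/-
S41 / C4 [CSP] BACKUP route (helper7's proof), piece [INV] (helper59).

Pure matrix algebra in `SL(2,ℚ)` and its consequence for a homomorphism `Φ` on
`Δ = Γ₀(N)[1/q]` whose value only depends on the first column:

* `col_mul`   : the product rule (R) for first columns;
* `inv_col`   : the two factorisations `g₁ g₂` and `g g'` have the SAME first column;
* `inv_hom`   : `Φ g₁ * Φ g₂ = Φ g * Φ g'`;
* `inv_hom'`  : the same with `g'` replaced by its conjugate under `diag(v, 1/v)` (all four lower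
  left entries equal): the identity (INV)
  `ψ(a₁) + ψ(a₂) = ψ(a) + ψ(t - v² d)`, `a = a₁ + (v² - 1)/t`.
-/
import Fermat.Agent.S41.Amalgam95.Delta

set_option autoImplicit false

namespace Fermat.Agent.S41.CspInv59

open Matrix Fermat.Agent.S41.Amalgam95

/-- **product rule (R)**: if the lower left entry of `g'` is `lam` times that of `g`, then
`g * g'` has first column `(a s - lam, c s)` with `s = a' + lam d`. -/
lemma col_mul (g g' : SLQ) (lam : ℚ) (h : g' 1 0 = lam * g 1 0) :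
    (g * g') 0 0 = g 0 0 * (g' 0 0 + lam * g 1 1) - lam ∧
    (g * g') 1 0 = g 1 0 * (g' 0 0 + lam * g 1 1) := by
  have hd := det_eq g
  refine ⟨?_, ?_⟩
  · rw [mul_00, h]
    linear_combination (-lam) * hd
  · rw [mul_10, h]
    ring

/-- **two factorisations, same column.**  `g₁ = (a₁ * ; c d₁)`, `g₂ = (t - d₁ * ; c *)`,
`g = (a * ; c d)` with `a t = a₁ t + (w - 1)`, `g' = (t - w d * ; w c *)`: both products have first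
column `(a₁ t - 1, c t)`. -/
theorem inv_col (g₁ g₂ g g' : SLQ) (t w : ℚ)
    (h2a : g₂ 0 0 = t - g₁ 1 1) (h2c : g₂ 1 0 = g₁ 1 0)
    (hga : g 0 0 * t = g₁ 0 0 * t + (w - 1)) (hgc : g 1 0 = g₁ 1 0)
    (h'a : g' 0 0 = t - w * g 1 1) (h'c : g' 1 0 = w * g₁ 1 0) :
    (g₁ * g₂) 0 0 = (g * g') 0 0 ∧ (g₁ * g₂) 1 0 = (g * g') 1 0 := by
  obtain ⟨h1, h2⟩ := col_mul g₁ g₂ 1 (by rw [h2c, one_mul])
  obtain ⟨h3, h4⟩ := col_mul g g' w (by rw [h'c, hgc])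
  rw [h1, h2, h3, h4, h2a, h'a, hgc]
  refine ⟨?_, ?_⟩
  · linear_combination (-1 : ℚ) * hga
  · ring

variable {N q : ℕ} {V : Type*} [CommGroup V]

/-- **(INV), product form.** -/
theorem inv_hom (Φ : ↥(DeltaQ N q) →* V)
    (hcol : ∀ x y : ↥(DeltaQ N q), (x : SLQ) 0 0 = (y : SLQ) 0 0 → (x : SLQ) 1 0 = (y : SLQ) 1 0 →
      Φ x = Φ y)
    (g₁ g₂ g g' : ↥(DeltaQ N q)) (t w : ℚ)
    (h2a : (g₂ : SLQ) 0 0 = t - (g₁ : SLQ) 1 1) (h2c : (g₂ : SLQ) 1 0 = (g₁ : SLQ) 1 0)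
    (hga : (g : SLQ) 0 0 * t = (g₁ : SLQ) 0 0 * t + (w - 1)) (hgc : (g : SLQ) 1 0 = (g₁ : SLQ) 1 0)
    (h'a : (g' : SLQ) 0 0 = t - w * (g : SLQ) 1 1) (h'c : (g' : SLQ) 1 0 = w * (g₁ : SLQ) 1 0) :
    Φ g₁ * Φ g₂ = Φ g * Φ g' := by
  obtain ⟨h1, h2⟩ := inv_col (g₁ : SLQ) g₂ g g' t w h2a h2c hga hgc h'a h'c
  rw [← map_mul, ← map_mul]
  exact hcol (g₁ * g₂) (g * g') (by simpa using h1) (by simpa using h2)

/-- `diag(v, 1/v)` -/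
def hQ (v : ℚ) (hv : v ≠ 0) : SLQ := mkQ v 0 0 v⁻¹ (by
  rw [mul_zero, sub_zero, mul_inv_cancel₀ hv])

lemma hQ_inv_mul_mul (v : ℚ) (hv : v ≠ 0) (x : SLQ) :
    ((hQ v hv)⁻¹ * x * hQ v hv) 0 0 = x 0 0 ∧ ((hQ v hv)⁻¹ * x * hQ v hv) 1 0 = v ^ 2 * x 1 0 := by
  have h00 : (hQ v hv) 0 0 = v := rfl
  have h01 : (hQ v hv) 0 1 = 0 := rfl
  have h10 : (hQ v hv) 1 0 = 0 := rfl
  have h11 : (hQ v hv) 1 1 = v⁻¹ := rfl
  refine ⟨?_, ?_⟩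
  · rw [mul_00, mul_00, mul_01, inv_00, inv_01, h00, h01, h10, h11]
    field_simp
    ring
  · rw [mul_10, mul_10, mul_11, inv_10, inv_11, h00, h10]
    ring

/-- **(INV)**: all four matrices with the same lower left entry `c`; `w = v²` with
`diag(v,1/v) ∈ Δ`.  In symbols: `ψ(a₁) + ψ(a₂) = ψ(a) + ψ(t - v² d)` where `a₂ = t - d₁`,
`a = a₁ + (v² - 1)/t`, `d` = lower right entry of the matrix with first column `(a, c)`. -/
theorem inv_hom' (Φ : ↥(DeltaQ N q) →* V)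
    (hcol : ∀ x y : ↥(DeltaQ N q), (x : SLQ) 0 0 = (y : SLQ) 0 0 → (x : SLQ) 1 0 = (y : SLQ) 1 0 →
      Φ x = Φ y)
    (v : ℚ) (hv : v ≠ 0) (hvΔ : hQ v hv ∈ DeltaQ N q)
    (g₁ g₂ g g'' : ↥(DeltaQ N q)) (t : ℚ)
    (h2a : (g₂ : SLQ) 0 0 = t - (g₁ : SLQ) 1 1) (h2c : (g₂ : SLQ) 1 0 = (g₁ : SLQ) 1 0)
    (hga : (g : SLQ) 0 0 * t = (g₁ : SLQ) 0 0 * t + (v ^ 2 - 1))
    (hgc : (g : SLQ) 1 0 = (g₁ : SLQ) 1 0)
    (h''a : (g'' : SLQ) 0 0 = t - v ^ 2 * (g : SLQ) 1 1)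
    (h''c : (g'' : SLQ) 1 0 = (g₁ : SLQ) 1 0) :
    Φ g₁ * Φ g₂ = Φ g * Φ g'' := by
  set h : ↥(DeltaQ N q) := ⟨hQ v hv, hvΔ⟩ with hh
  set g' : ↥(DeltaQ N q) := h⁻¹ * g'' * h with hg'
  obtain ⟨c00, c10⟩ := hQ_inv_mul_mul v hv (g'' : SLQ)
  have e : ((g' : ↥(DeltaQ N q)) : SLQ) = (hQ v hv)⁻¹ * (g'' : SLQ) * hQ v hv := by
    simp [hg', hh]
  have h1 : Φ g' = Φ g'' := by
    rw [hg', map_mul, map_mul, map_inv, mul_comm (Φ h)⁻¹, mul_assoc, inv_mul_cancel, mul_one]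
  rw [← h1]
  refine inv_hom Φ hcol g₁ g₂ g g' t (v ^ 2) h2a h2c hga hgc ?_ ?_
  · rw [e, c00, h''a]
  · rw [e, c10, h''c]

end Fermat.Agent.S41.CspInv59
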